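import Mathlib
import Fermat.Agent.H82.CharPoly

/-!
# P-DS / DS-1a: characteristic polynomial of a cusp form on `Γ₁(N)` over level one

Port of `Fermat.Agent.H82.exists_charpoly` to `Γ₁(N)`.
-/

set_option autoImplicit false

open UpperHalfPlane ModularForm CongruenceSubgroup SlashInvariantForm
open scoped MatrixGroups ModularForm Topology Filter Manifold

namespace Fermat.Agent.H79.G1

noncomputable section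

theorem exists_charpoly (N : ℕ) [NeZero N] (k : ℤ) (f : CuspForm (Gamma1 N) k) :
    ∃ (μ : ℕ) (c : ℕ → ℍ → ℂ), 0 < μ ∧
      (∀ i < μ, ∃ g : CuspForm 𝒮ℒ (k * ((μ : ℤ) - (i : ℤ))), ⇑g = c i) ∧
      (⇑f) ^ μ + ∑ i ∈ Finset.range μ, c i * (⇑f) ^ i = 0 := by
  let 𝒢 : Subgroup (GL (Fin 2) ℝ) := (Gamma1 N : Subgroup (GL (Fin 2) ℝ))
  refine ⟨Nat.card (𝒮ℒ ⧸ 𝒢.subgroupOf 𝒮ℒ),
    fun i => (-1 : ℂ) ^ (Nat.card (𝒮ℒ ⧸ 𝒢.subgroupOf 𝒮ℒ) - i) •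
      Fermat.Agent.H82.esymmFun (ℋ := 𝒮ℒ) f (Nat.card (𝒮ℒ ⧸ 𝒢.subgroupOf 𝒮ℒ) - i), Nat.card_pos, ?_, ?_⟩
  · intro i hi
    have hn : 0 < Nat.card (𝒮ℒ ⧸ 𝒢.subgroupOf 𝒮ℒ) - i := Nat.sub_pos_of_lt hi
    have hw : k * ((Nat.card (𝒮ℒ ⧸ 𝒢.subgroupOf 𝒮ℒ) - i : ℕ) : ℤ) =
        k * ((Nat.card (𝒮ℒ ⧸ 𝒢.subgroupOf 𝒮ℒ) : ℤ) - (i : ℤ)) := by
      rw [Nat.cast_sub hi.le]
    have key : ∀ (w w' : ℤ) (_ : w = w') (g : CuspForm 𝒮ℒ w), ∃ g' : CuspForm 𝒮ℒ w', ⇑g' = ⇑g := by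
      rintro w w' rfl g
      exact ⟨g, rfl⟩
    obtain ⟨g', hg'⟩ := key _ _ hw
      ((-1 : ℂ) ^ (Nat.card (𝒮ℒ ⧸ 𝒢.subgroupOf 𝒮ℒ) - i) • Fermat.Agent.H82.esymmCuspForm 𝒮ℒ f hn)
    refine ⟨g', ?_⟩
    rw [hg']
    rfl
  · funext τ
    have := Fermat.Agent.H82.esymmFun_root 𝒮ℒ f τ
    simp only [Pi.add_apply, Pi.pow_apply, Finset.sum_apply, Pi.mul_apply, Pi.smul_apply,
      smul_eq_mul, Pi.zero_apply]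
    exact this

end

end Fermat.Agent.H79.G1
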