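import Mathlib

/-!
# P-DS / DS-1a: Eisenstein sums over arbitrary sets of index vectors

For a set `S` of integer vectors `(c, d)` we consider
`eisSet S k z = ∑_{(c, d) ∈ S} (c z + d) ^ (-k)`.

* `eisSet_slash` : `eisSet S k ∣[k] γ = eisSet (S · γ) k`.
* `mdiff_eisSet`, `isBoundedAtImInfty_eisSet` (for `3 ≤ k`).
* `tendsto_eisSet` : the value at `i∞` is `∑_{(0, d) ∈ S} d ^ (-k)`.
-/

set_option autoImplicit false

open ModularForm UpperHalfPlane SlashInvariantForm CongruenceSubgroup EisensteinSeries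
open Filter Topology

open scoped MatrixGroups Manifold Matrix

namespace Fermat.Agent.H79

noncomputable section

/-- The Eisenstein sum over a set of index vectors. -/
def eisSet (S : Set (Fin 2 → ℤ)) (k : ℤ) (z : ℍ) : ℂ := ∑' v : S, eisSummand k v z

/-- The translate of a set of index vectors by `γ` (acting on the right). -/
def setSMul (S : Set (Fin 2 → ℤ)) (γ : SL(2, ℤ)) : Set (Fin 2 → ℤ) :=
  {v | v ᵥ* (γ⁻¹).1 ∈ S}

theorem mem_setSMul {S : Set (Fin 2 → ℤ)} {γ : SL(2, ℤ)} {v : Fin 2 → ℤ} :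
    v ∈ setSMul S γ ↔ v ᵥ* (γ⁻¹).1 ∈ S := Iff.rfl

theorem vecMul_mul_inv (v : Fin 2 → ℤ) (γ : SL(2, ℤ)) :
    (v ᵥ* γ.1) ᵥ* (γ⁻¹).1 = v := by
  rw [Matrix.vecMul_vecMul]
  have : γ.1 * (γ⁻¹).1 = 1 := congrArg Subtype.val (mul_inv_cancel γ)
  rw [this, Matrix.vecMul_one]

theorem vecMul_inv_mul (v : Fin 2 → ℤ) (γ : SL(2, ℤ)) :
    (v ᵥ* (γ⁻¹).1) ᵥ* γ.1 = v := by
  rw [Matrix.vecMul_vecMul]
  have : (γ⁻¹).1 * γ.1 = 1 := congrArg Subtype.val (inv_mul_cancel γ)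
  rw [this, Matrix.vecMul_one]

/-- The bijection `S ≃ S · γ`. -/
def setSMulEquiv (S : Set (Fin 2 → ℤ)) (γ : SL(2, ℤ)) : S ≃ setSMul S γ where
  toFun v := ⟨v.1 ᵥ* γ.1, by
    show (v.1 ᵥ* γ.1) ᵥ* (γ⁻¹).1 ∈ S
    rw [vecMul_mul_inv]; exact v.2⟩
  invFun v := ⟨v.1 ᵥ* (γ⁻¹).1, v.2⟩
  left_inv v := Subtype.ext (vecMul_mul_inv v.1 γ)
  right_inv v := Subtype.ext (vecMul_inv_mul v.1 γ)

theorem eisSet_slash (S : Set (Fin 2 → ℤ)) (k : ℤ) (γ : SL(2, ℤ)) :
    eisSet S k ∣[k] γ = eisSet (setSMul S γ) k := by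
  ext1 z
  simp_rw [SL_slash_apply, _root_.zpow_neg,
    mul_inv_eq_iff_eq_mul₀ (zpow_ne_zero _ <| denom_ne_zero _ z),
    eisSet, eisSummand_SL2_apply, tsum_mul_left, mul_comm (_ ^ k)]
  congr 1
  exact (setSMulEquiv S γ).tsum_eq (fun v : setSMul S γ => eisSummand k v z)

/-! ### Holomorphy -/

theorem eisSet_tendstoLocallyUniformly {k : ℤ} (hk : 3 ≤ k) (S : Set (Fin 2 → ℤ)) :
    TendstoLocallyUniformly (fun (s : Finset S) ↦ (∑ x ∈ s, eisSummand k x ·))
      (eisSet S k ·) Filter.atTop := by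
  have hk' : (2 : ℝ) < k := by norm_cast
  have p_sum : Summable fun x : S ↦ ‖x.val‖ ^ (-k) :=
    mod_cast (summable_one_div_norm_rpow hk').subtype (· ∈ S)
  simp only [tendstoLocallyUniformly_iff_forall_isCompact, eisSet]
  intro K hK
  obtain ⟨A, B, hB, HABK⟩ := subset_verticalStrip_of_isCompact hK
  refine (tendstoUniformlyOn_tsum (hu := p_sum.mul_left <| r ⟨⟨A, B⟩, hB⟩ ^ (-k : ℝ))
    (fun p z hz ↦ ?_)).mono HABK
  simpa only [eisSummand, one_div, ← _root_.zpow_neg, norm_zpow, ← Real.rpow_intCast,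
    Int.cast_neg] using summand_bound_of_mem_verticalStrip (by positivity) p hB hz

theorem eisSet_tendstoLocallyUniformlyOn {k : ℤ} (hk : 3 ≤ k) (S : Set (Fin 2 → ℤ)) :
    TendstoLocallyUniformlyOn (fun (s : Finset S) ↦
      ↑ₕ(fun (z : ℍ) ↦ ∑ x ∈ s, eisSummand k x z)) (↑ₕ(eisSet S k))
          Filter.atTop {z : ℂ | 0 < z.im} := by
  rw [← upperHalfPlaneSet, ← UpperHalfPlane.range_coe, ← Set.image_univ]
  apply TendstoLocallyUniformlyOn.comp (s := ⊤) _ _ _ (OpenPartialHomeomorph.continuousOn_symm _)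
  · simp only [Set.top_eq_univ, tendstoLocallyUniformlyOn_univ]
    apply eisSet_tendstoLocallyUniformly hk
  · simp only [IsOpenEmbedding.toOpenPartialHomeomorph_target, Set.top_eq_univ,
      Set.mapsTo_range_iff, Set.mem_univ, forall_const]

theorem mdiff_eisSet {k : ℤ} (hk : 3 ≤ k) (S : Set (Fin 2 → ℤ)) : MDiff (eisSet S k) := by
  intro τ
  suffices DifferentiableAt ℂ (↑ₕ(eisSet S k)) τ.1 by
    convert!
      MDifferentiableAt.comp τ (DifferentiableAt.mdifferentiableAt this) τ.mdifferentiable_coe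
    exact funext fun z ↦ (comp_ofComplex (eisSet S k) z).symm
  refine DifferentiableOn.differentiableAt ?_ (isOpen_upperHalfPlaneSet.mem_nhds τ.2)
  exact (eisSet_tendstoLocallyUniformlyOn hk S).differentiableOn
    (Eventually.of_forall fun s ↦ DifferentiableOn.fun_sum
    fun _ _ ↦ eisSummand_extension_differentiableOn _ _) isOpen_upperHalfPlaneSet

/-! ### The value at `i∞` -/

/-- The index vectors with nonzero first coordinate. -/
def nzSet : Set (Fin 2 → ℤ) := {v | v 0 ≠ 0}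

/-- The shear `(c, d) ↦ (c, d + n c)` on the vectors with `c ≠ 0`. -/
def shearEquiv (n : ℤ) : nzSet ≃ nzSet where
  toFun v := ⟨![v.1 0, v.1 1 + n * v.1 0], v.2⟩
  invFun v := ⟨![v.1 0, v.1 1 - n * v.1 0], v.2⟩
  left_inv v := by
    apply Subtype.ext
    funext i
    fin_cases i <;> simp
  right_inv v := by
    apply Subtype.ext
    funext i
    fin_cases i <;> simp

theorem eisSummand_T_zpow_smul (k : ℤ) (n : ℤ) (v : nzSet) (z : ℍ) :
    eisSummand k v (ModularGroup.T ^ n • z) = eisSummand k (shearEquiv n v) z := by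
  simp only [eisSummand, shearEquiv, Equiv.coe_fn_mk, ModularGroup.coe_T_zpow_smul_eq]
  congr 1
  simp only [Matrix.cons_val_zero, Matrix.cons_val_one, Int.cast_add, Int.cast_mul]
  ring

/-- The majorant: the sum of the norms of the summands with `c ≠ 0`. -/
def nzSum (k : ℤ) (z : ℍ) : ℝ := ∑' v : nzSet, ‖eisSummand k v z‖

theorem nzSum_T_zpow_smul (k : ℤ) (n : ℤ) (z : ℍ) :
    nzSum k (ModularGroup.T ^ n • z) = nzSum k z := by
  unfold nzSum
  simp_rw [eisSummand_T_zpow_smul]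
  exact (shearEquiv n).tsum_eq (fun v : nzSet => ‖eisSummand k v z‖)

theorem tendsto_im_inv : Tendsto (fun z : ℍ => (z.im)⁻¹) atImInfty (𝓝 0) :=
  tendsto_inv_atTop_zero.comp tendsto_comap

theorem tendsto_eisSummand_norm {k : ℤ} (hk : 3 ≤ k) (v : nzSet) :
    Tendsto (fun z : ℍ => ‖eisSummand k v z‖) atImInfty (𝓝 0) := by
  have hv : (v.1 0) ≠ 0 := v.2
  refine squeeze_zero' (Eventually.of_forall fun z => norm_nonneg _) ?_ tendsto_im_inv
  have hmem : {z : ℍ | 1 ≤ z.im} ∈ atImInfty := (atImInfty_mem _).mpr ⟨1, fun z hz => hz⟩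
  filter_upwards [hmem] with z hz1
  have hz1 : (1 : ℝ) ≤ z.im := hz1
  have hz : 0 < z.im := z.im_pos
  have hge : z.im ≤ ‖(v.1 0 : ℂ) * (z : ℂ) + v.1 1‖ := by
    have h2 : |((v.1 0 : ℂ) * (z : ℂ) + v.1 1).im| ≤ ‖(v.1 0 : ℂ) * (z : ℂ) + v.1 1‖ :=
      Complex.abs_im_le_norm _
    have h3 : ((v.1 0 : ℂ) * (z : ℂ) + v.1 1).im = (v.1 0 : ℝ) * z.im := by
      simp
    rw [h3, abs_mul, abs_of_pos hz] at h2
    have h4 : (1 : ℝ) ≤ |(v.1 0 : ℝ)| := by
      have : (1 : ℤ) ≤ |v.1 0| := Int.one_le_abs hv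
      exact_mod_cast this
    nlinarith
  have hx1 : (1 : ℝ) ≤ ‖(v.1 0 : ℂ) * (z : ℂ) + v.1 1‖ := hz1.trans hge
  have hpos : 0 < ‖(v.1 0 : ℂ) * (z : ℂ) + v.1 1‖ := lt_of_lt_of_le hz hge
  simp only [eisSummand, norm_zpow]
  have hk0 : (0 : ℤ) ≤ k := by omega
  obtain ⟨m, rfl⟩ := Int.eq_ofNat_of_zero_le hk0
  have hm : 1 ≤ m := by
    have : (3 : ℤ) ≤ (m : ℤ) := hk
    omega
  rw [_root_.zpow_neg, zpow_natCast]
  calc (‖(v.1 0 : ℂ) * (z : ℂ) + v.1 1‖ ^ m)⁻¹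
      ≤ (‖(v.1 0 : ℂ) * (z : ℂ) + v.1 1‖ ^ 1)⁻¹ :=
        inv_anti₀ (pow_pos hpos 1) (pow_le_pow_right₀ hx1 hm)
    _ = (‖(v.1 0 : ℂ) * (z : ℂ) + v.1 1‖)⁻¹ := by rw [pow_one]
    _ ≤ (z.im)⁻¹ := inv_anti₀ hz hge

theorem summable_norm_eisSummand_subtype {k : ℤ} (hk : 3 ≤ k) (S : Set (Fin 2 → ℤ)) (z : ℍ) :
    Summable fun v : S => ‖eisSummand k v z‖ :=
  (summable_norm_eisSummand hk z).subtype S

theorem tendsto_nzSum_strip {k : ℤ} (hk : 3 ≤ k) :
    Tendsto (nzSum k) (atImInfty ⊓ 𝓟 (verticalStrip 1 1)) (𝓝 0) := by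
  have hk' : (2 : ℝ) < k := by norm_cast
  have hsum : Summable fun v : nzSet =>
      r ⟨⟨1, 1⟩, one_pos⟩ ^ (-(k : ℝ)) * ‖v.1‖ ^ (-(k : ℝ)) := by
    have h := ((summable_one_div_norm_rpow hk').mul_left
      (r ⟨⟨1, 1⟩, one_pos⟩ ^ (-(k : ℝ)))).subtype nzSet
    refine h.congr fun v => ?_
    simp only [Function.comp_apply, one_div, Real.rpow_neg (norm_nonneg _)]
  have h0 : (0 : ℝ) = ∑' _ : nzSet, (0 : ℝ) := tsum_zero.symm
  rw [h0]
  unfold nzSum
  refine tendsto_tsum_of_dominated_convergence hsum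
    (fun v => (tendsto_eisSummand_norm hk v).mono_left inf_le_left) ?_
  have hmem : verticalStrip 1 1 ∈ atImInfty ⊓ 𝓟 (verticalStrip 1 1) :=
    mem_inf_of_right (mem_principal_self _)
  filter_upwards [hmem] with z hz v
  rw [norm_norm]
  simp only [eisSummand, norm_zpow]
  have := summand_bound_of_mem_verticalStrip (k := (k : ℝ)) (by positivity) v.1 one_pos hz
  rw [← Real.rpow_intCast, Int.cast_neg]
  exact this

theorem tendsto_nzSum {k : ℤ} (hk : 3 ≤ k) : Tendsto (nzSum k) atImInfty (𝓝 0) := by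
  intro U hU
  have h := tendsto_nzSum_strip hk hU
  rw [Filter.mem_map, mem_inf_principal, atImInfty_mem] at h
  obtain ⟨A, hA⟩ := h
  rw [Filter.mem_map, atImInfty_mem]
  refine ⟨max A 1, fun z hz => ?_⟩
  obtain ⟨n, hn⟩ := ModularGroup_T_zpow_mem_verticalStrip z (N := 1) one_pos
  have him : (ModularGroup.T ^ ((1 : ℕ) * n : ℤ) • z).im = z.im := ModularGroup.im_T_zpow_smul _ _
  have h1 : ModularGroup.T ^ ((1 : ℕ) * n : ℤ) • z ∈ verticalStrip 1 1 := by
    have := verticalStrip_anti_right ((1 : ℕ) : ℝ) ((le_max_right A 1).trans hz) hn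
    simpa using this
  have h2 := hA (ModularGroup.T ^ ((1 : ℕ) * n : ℤ) • z)
    (by rw [him]; exact (le_max_left A 1).trans hz) h1
  simp only [Set.mem_preimage] at h2 ⊢
  rwa [nzSum_T_zpow_smul] at h2

/-- The value at `i∞` of the Eisenstein sum over `S`. -/
def eisSetInfty (S : Set (Fin 2 → ℤ)) (k : ℤ) : ℂ :=
  ∑' v : S, if v.1 0 = 0 then ((v.1 1 : ℤ) : ℂ) ^ (-k) else 0

theorem eisSummand_of_zero (k : ℤ) (v : Fin 2 → ℤ) (hv : v 0 = 0) (z : ℍ) :
    eisSummand k v z = ((v 1 : ℤ) : ℂ) ^ (-k) := by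
  simp [eisSummand, hv]

theorem norm_eisSet_sub_le {k : ℤ} (hk : 3 ≤ k) (S : Set (Fin 2 → ℤ)) (z : ℍ) :
    ‖eisSet S k z - eisSetInfty S k‖ ≤ nzSum k z := by
  have hs1 : Summable fun v : S => eisSummand k v z :=
    (summable_norm_eisSummand_subtype hk S z).of_norm
  have hs2 : Summable fun v : S => (if v.1 0 = 0 then ((v.1 1 : ℤ) : ℂ) ^ (-k) else 0) := by
    refine Summable.of_norm ?_
    refine (summable_norm_eisSummand_subtype hk S z).of_nonneg_of_le (fun _ => norm_nonneg _) ?_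
    intro v
    split_ifs with h
    · rw [eisSummand_of_zero k v.1 h z]
    · simp
  unfold eisSet eisSetInfty
  rw [← hs1.tsum_sub hs2]
  have hterm : ∀ v : S, eisSummand k v z - (if v.1 0 = 0 then ((v.1 1 : ℤ) : ℂ) ^ (-k) else 0)
      = if v.1 0 = 0 then 0 else eisSummand k v z := by
    intro v
    split_ifs with h
    · rw [eisSummand_of_zero k v.1 h z, sub_self]
    · rw [sub_zero]
  simp_rw [hterm]
  -- compare with the sum over all vectors with `c ≠ 0`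
  have hn : Summable fun v : Fin 2 → ℤ =>
      nzSet.indicator (fun v => ‖eisSummand k v z‖) v :=
    (summable_norm_eisSummand hk z).indicator _
  have hle : ∀ v : Fin 2 → ℤ,
      S.indicator (fun v => ‖(if v 0 = 0 then (0 : ℂ) else eisSummand k v z)‖) v
        ≤ nzSet.indicator (fun v => ‖eisSummand k v z‖) v := by
    intro v
    by_cases hvS : v ∈ S
    · rw [Set.indicator_of_mem hvS]
      by_cases h0 : v 0 = 0
      · rw [if_pos h0, norm_zero]
        exact Set.indicator_nonneg (fun _ _ => norm_nonneg _) _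
      · rw [if_neg h0, Set.indicator_of_mem (show v ∈ nzSet from h0)]
    · rw [Set.indicator_of_notMem hvS]
      exact Set.indicator_nonneg (fun _ _ => norm_nonneg _) _
  have hsS : Summable fun v : Fin 2 → ℤ =>
      S.indicator (fun v => ‖(if v 0 = 0 then (0 : ℂ) else eisSummand k v z)‖) v :=
    hn.of_nonneg_of_le (fun v => Set.indicator_nonneg (fun _ _ => norm_nonneg _) _) hle
  have hsS' : Summable fun v : S => ‖(if v.1 0 = 0 then (0 : ℂ) else eisSummand k v.1 z)‖ :=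
    (summable_subtype_iff_indicator).mpr hsS
  calc ‖∑' v : S, (if v.1 0 = 0 then (0 : ℂ) else eisSummand k v z)‖
      ≤ ∑' v : S, ‖(if v.1 0 = 0 then (0 : ℂ) else eisSummand k v.1 z)‖ :=
        norm_tsum_le_tsum_norm hsS'
    _ = ∑' v : Fin 2 → ℤ,
          S.indicator (fun v => ‖(if v 0 = 0 then (0 : ℂ) else eisSummand k v z)‖) v :=
        tsum_subtype S (fun v => ‖(if v 0 = 0 then (0 : ℂ) else eisSummand k v z)‖)
    _ ≤ ∑' v : Fin 2 → ℤ, nzSet.indicator (fun v => ‖eisSummand k v z‖) v :=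
        hsS.tsum_le_tsum hle hn
    _ = nzSum k z := (tsum_subtype nzSet (fun v => ‖eisSummand k v z‖)).symm

/-- **The value at `i∞`.** -/
theorem tendsto_eisSet {k : ℤ} (hk : 3 ≤ k) (S : Set (Fin 2 → ℤ)) :
    Tendsto (eisSet S k) atImInfty (𝓝 (eisSetInfty S k)) := by
  rw [tendsto_iff_norm_sub_tendsto_zero]
  exact squeeze_zero (fun z => norm_nonneg _) (norm_eisSet_sub_le hk S) (tendsto_nzSum hk)

theorem isBoundedAtImInfty_eisSet {k : ℤ} (hk : 3 ≤ k) (S : Set (Fin 2 → ℤ)) :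
    IsBoundedAtImInfty (eisSet S k) :=
  (tendsto_eisSet hk S).isBigO_one ℝ

end

end Fermat.Agent.H79
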