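import Mathlib
import Fermat.Agent.H79.DS.EisClass

/-!
# P-DS / DS-1a: the separating form of weight 3 on `Γ₁(N)`

`eisOne N = ∑_{c ≡ 1 mod N, d} (c z + d)⁻³`, a modular form of weight `3` on `Γ₁(N)`.

* `eisOne_stabiliser` : for `3 ≤ N`, `eisOne N ∣[3] γ = eisOne N` implies `γ ∈ Γ₁(N)`.
-/

set_option autoImplicit false

open ModularForm UpperHalfPlane SlashInvariantForm CongruenceSubgroup EisensteinSeries
open Filter Topology

open scoped MatrixGroups Manifold Matrix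

namespace Fermat.Agent.H79

noncomputable section

variable (N : ℕ)

/-- The index vectors `(c, d)` with `c ≡ 1 mod N`. -/
def oneSet : Set (Fin 2 → ℤ) := {v | ((v 0 : ℤ) : ZMod N) = 1}

variable {N}

theorem mem_setSMul_oneSet (γ : SL(2, ℤ)) (v : Fin 2 → ℤ) :
    v ∈ setSMul (oneSet N) γ ↔
      ((v 0 : ℤ) : ZMod N) * ((γ.1 1 1 : ℤ) : ZMod N)
        - ((v 1 : ℤ) : ZMod N) * ((γ.1 1 0 : ℤ) : ZMod N) = 1 := by
  rw [mem_setSMul]
  show (((v ᵥ* (γ⁻¹).1) 0 : ℤ) : ZMod N) = 1 ↔ _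
  have h : (v ᵥ* (γ⁻¹).1) 0 = v 0 * γ.1 1 1 - v 1 * γ.1 1 0 := by
    have hinv : (γ⁻¹).1 = Matrix.adjugate γ.1 := Matrix.SpecialLinearGroup.coe_inv γ
    rw [hinv, Matrix.adjugate_fin_two]
    simp [Matrix.vecMul, dotProduct, Fin.sum_univ_two]
    ring
  rw [h]
  push_cast
  rfl

theorem setSMul_oneSet_of_mem {γ : SL(2, ℤ)} (hγ : γ ∈ Gamma1 N) :
    setSMul (oneSet N) γ = oneSet N := by
  ext v
  rw [mem_setSMul_oneSet]
  obtain ⟨-, h11, h10⟩ := (Gamma1_mem N γ).mp hγ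
  rw [show ((γ.1 1 1 : ℤ) : ZMod N) = 1 from h11, show ((γ.1 1 0 : ℤ) : ZMod N) = 0 from h10]
  simp [oneSet]

/-- The weight-3 Eisenstein series `∑_{c ≡ 1 mod N} (c z + d)⁻³` on `Γ₁(N)`. -/
def eisOne (N : ℕ) [NeZero N] : ModularForm (Gamma1 N) 3 where
  toFun := eisSet (oneSet N) 3
  slash_action_eq' A hA := by
    obtain ⟨γ, hγ, rfl⟩ := hA
    have := eisSet_slash (oneSet N) 3 γ
    rw [setSMul_oneSet_of_mem hγ] at this
    exact this
  holo' := mdiff_eisSet (by norm_num) _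
  bdd_at_cusps' {c} hc := by
    rw [Subgroup.IsArithmetic.isCusp_iff_isCusp_SL2Z] at hc
    rw [OnePoint.isBoundedAt_iff_forall_SL2Z hc]
    intro γ _
    show IsBoundedAtImInfty (eisSet (oneSet N) 3 ∣[(3 : ℤ)] γ)
    rw [eisSet_slash]
    exact isBoundedAtImInfty_eisSet (by norm_num) _

theorem coe_eisOne (N : ℕ) [NeZero N] : ⇑(eisOne N) = eisSet (oneSet N) 3 := rfl

end

end Fermat.Agent.H79
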