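import Mathlib
import Fermat.Agent.H79.DS.SepForm1

/-!
# P-DS / DS-1a: the stabiliser of the weight-3 Eisenstein series `eisOne N`

For `3 ≤ N` the stabiliser of `eisOne N` in `SL(2, ℤ)` is exactly `Γ₁(N)`: the values at the
cusps (limits at `i∞` of the translates) are the sums `∑_{d x ≡ 1 mod N} d⁻³`, and the sum for
`x = 1` is dominated by the term `d = 1`.
-/

set_option autoImplicit false

open ModularForm UpperHalfPlane SlashInvariantForm CongruenceSubgroup EisensteinSeries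
open Filter Topology

open scoped MatrixGroups Manifold Matrix Real

namespace Fermat.Agent.H79

noncomputable section

open Classical in
/-- The value at `i∞` as a sum over `d`. -/
theorem eisSetInfty_eq_tsum (S : Set (Fin 2 → ℤ)) (k : ℤ) :
    eisSetInfty S k = ∑' d : ℤ, if ![0, d] ∈ S then ((d : ℤ) : ℂ) ^ (-k) else 0 := by
  unfold eisSetInfty
  rw [tsum_subtype S (fun v => if v 0 = 0 then ((v 1 : ℤ) : ℂ) ^ (-k) else 0)]
  have hinj : Function.Injective (fun d : ℤ => (![0, d] : Fin 2 → ℤ)) := by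
    intro a b h
    have := congrFun h 1
    simpa using this
  rw [← hinj.tsum_eq]
  · refine tsum_congr fun d => ?_
    by_cases h : ![0, d] ∈ S
    · rw [Set.indicator_of_mem h, if_pos h]
      simp
    · rw [Set.indicator_of_notMem h, if_neg h]
  · intro v hv
    rw [Function.mem_support] at hv
    have hvS : v ∈ S := by
      by_contra h
      exact hv (Set.indicator_of_notMem h _)
    rw [Set.indicator_of_mem hvS] at hv
    have h0 : v 0 = 0 := by
      by_contra h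
      exact hv (if_neg h)
    refine ⟨v 1, ?_⟩
    funext i
    fin_cases i
    · simpa using h0.symm
    · simp

/-- The terms of the sums `∑_{d x ≡ 1 mod N} d⁻³`. -/
def wTerm (N : ℕ) (x : ZMod N) (d : ℤ) : ℝ :=
  if ((d : ℤ) : ZMod N) * x = 1 then ((d : ℝ)) ^ (-3 : ℤ) else 0

/-- The sums `∑_{d x ≡ 1 mod N} d⁻³`. -/
def wSum (N : ℕ) (x : ZMod N) : ℝ := ∑' d : ℤ, wTerm N x d

theorem abs_wTerm_le (N : ℕ) (x : ZMod N) (d : ℤ) : |wTerm N x d| ≤ |1 / (d : ℝ) ^ 3| := by
  unfold wTerm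
  split_ifs
  · rw [zpow_neg, one_div]
    norm_cast
  · simp

theorem summable_wTerm (N : ℕ) (x : ZMod N) : Summable (wTerm N x) := by
  have h : Summable fun d : ℤ => |1 / (d : ℝ) ^ 3| :=
    (Real.summable_one_div_int_pow.mpr (by norm_num)).abs
  exact Summable.of_norm_bounded h (fun d => by
    rw [Real.norm_eq_abs]; exact abs_wTerm_le N x d)

theorem eisSetInfty_setSMul_oneSet (N : ℕ) (δ : SL(2, ℤ)) :
    eisSetInfty (setSMul (oneSet N) δ) 3
      = ((wSum N (-((δ.1 1 0 : ℤ) : ZMod N)) : ℝ) : ℂ) := by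
  rw [eisSetInfty_eq_tsum, wSum, Complex.ofReal_tsum]
  refine tsum_congr fun d => ?_
  have hiff : (![0, d] : Fin 2 → ℤ) ∈ setSMul (oneSet N) δ
      ↔ ((d : ℤ) : ZMod N) * (-((δ.1 1 0 : ℤ) : ZMod N)) = 1 := by
    rw [mem_setSMul_oneSet]
    simp
  unfold wTerm
  by_cases h : ((d : ℤ) : ZMod N) * (-((δ.1 1 0 : ℤ) : ZMod N)) = 1
  · rw [if_pos (hiff.mpr h), if_pos h]
    push_cast
    rfl
  · rw [if_neg (fun h' => h (hiff.mp h')), if_neg h]
    simp

/-- The tail `∑_{n ≥ 2} n⁻³`. -/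
def tailSum : ℝ := ∑' n : ℕ, 1 / ((n : ℝ) + 2) ^ 3

theorem summable_shift_cube (j : ℕ) : Summable fun n : ℕ => 1 / ((n : ℝ) + j) ^ 3 := by
  have h : Summable fun n : ℕ => 1 / ((n : ℝ)) ^ 3 :=
    Real.summable_one_div_nat_pow.mpr (by norm_num)
  have := (summable_nat_add_iff j).mpr h
  simpa using this

theorem tailSum_lt : tailSum < 1 / 2 := by
  have h2 : HasSum (fun n : ℕ => (1 : ℝ) / ((n : ℝ) + 2) ^ 2) (π ^ 2 / 6 - 1) := by
    have := (hasSum_nat_add_iff' 2).mpr hasSum_zeta_two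
    simpa [Finset.sum_range_succ] using this
  have hle : ∀ n : ℕ, 1 / ((n : ℝ) + 2) ^ 3 ≤ (1 / 2) * (1 / ((n : ℝ) + 2) ^ 2) := by
    intro n
    have hn : (0 : ℝ) ≤ n := Nat.cast_nonneg n
    rw [div_mul_div_comm, one_mul]
    apply one_div_le_one_div_of_le (by positivity)
    nlinarith [sq_nonneg ((n : ℝ) + 2)]
  have h3 : tailSum ≤ (1 / 2) * (π ^ 2 / 6 - 1) := by
    have := (summable_shift_cube 2).tsum_le_tsum hle (h2.summable.mul_left (1 / 2))
    rw [tsum_mul_left, h2.tsum_eq] at this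
    simpa [tailSum] using this
  have hpi : π ^ 2 < 3.15 ^ 2 := by
    have := Real.pi_lt_d2
    have hpos := Real.pi_pos
    nlinarith
  norm_num at hpi
  linarith

/-- A lower bound for a series dominated by `∑ (n+1)⁻³`. -/
theorem le_tsum_of_abs_le (g : ℕ → ℝ) (hg : ∀ n : ℕ, |g n| ≤ 1 / ((n : ℝ) + 1) ^ 3) :
    g 0 - tailSum ≤ ∑' n, g n := by
  have hs : Summable g := by
    refine Summable.of_norm_bounded (summable_shift_cube 1) (fun n => ?_)
    rw [Real.norm_eq_abs]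
    simpa using hg n
  rw [hs.tsum_eq_zero_add]
  have hs1 : Summable fun n : ℕ => g (n + 1) := (summable_nat_add_iff 1).mpr hs
  have hle : ∀ n : ℕ, -(1 / ((n : ℝ) + 2) ^ 3) ≤ g (n + 1) := by
    intro n
    have := hg (n + 1)
    have h2 : ((n + 1 : ℕ) : ℝ) + 1 = (n : ℝ) + 2 := by push_cast; ring
    rw [h2] at this
    exact (abs_le.mp this).1
  have := (summable_shift_cube 2).neg.tsum_le_tsum hle hs1
  rw [tsum_neg] at this
  unfold tailSum
  linarith

theorem wSum_lt_of_ne_one (N : ℕ) (hN : 3 ≤ N) (x : ZMod N) (hx : x ≠ 1) :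
    wSum N x < wSum N 1 := by
  have : Fact (2 < N) := ⟨hN⟩
  set b : ℤ → ℝ := fun d => wTerm N 1 d - wTerm N x d with hb
  have hsb : Summable b := (summable_wTerm N 1).sub (summable_wTerm N x)
  have hsum : wSum N 1 - wSum N x = ∑' d, b d := by
    unfold wSum
    rw [← (summable_wTerm N 1).tsum_sub (summable_wTerm N x)]
  -- the pointwise bound
  have hbabs : ∀ d : ℤ, |b d| ≤ |1 / (d : ℝ) ^ 3| := by
    intro d
    simp only [hb]
    by_cases h1 : ((d : ℤ) : ZMod N) * 1 = 1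
    · have hxn : ¬ ((d : ℤ) : ZMod N) * x = 1 := by
        intro h2
        rw [mul_one] at h1
        rw [h1, one_mul] at h2
        exact hx h2
      have : wTerm N x d = 0 := if_neg hxn
      rw [this, sub_zero]
      exact abs_wTerm_le N 1 d
    · have : wTerm N 1 d = 0 := if_neg h1
      rw [this, zero_sub, abs_neg]
      exact abs_wTerm_le N x d
  have hb0 : b 0 = 0 := by
    simp [hb, wTerm]
  have hb1 : b 1 = 1 := by
    have h1 : wTerm N 1 1 = 1 := by simp [wTerm]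
    have h2 : wTerm N x 1 = 0 := by
      unfold wTerm
      rw [if_neg]
      simpa using hx
    simp only [hb]
    rw [h1, h2, sub_zero]
  have hbm1 : 0 ≤ b (-1) := by
    have h1 : wTerm N 1 (-1) = 0 := by
      unfold wTerm
      rw [if_neg]
      simpa using ZMod.neg_one_ne_one
    have h2 : wTerm N x (-1) ≤ 0 := by
      unfold wTerm
      split_ifs
      · norm_num
      · exact le_rfl
    simp only [hb]
    rw [h1]
    linarith
  have hpos := le_tsum_of_abs_le (fun n : ℕ => b ((n : ℤ) + 1)) (fun n => by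
    have := hbabs ((n : ℤ) + 1)
    have h0 : (0 : ℝ) ≤ 1 / ((n : ℝ) + 1) ^ 3 := by positivity
    push_cast at this
    rwa [abs_of_nonneg h0] at this)
  have hneg := le_tsum_of_abs_le (fun n : ℕ => b (-((n : ℤ) + 1))) (fun n => by
    have := hbabs (-((n : ℤ) + 1))
    have h0 : (0 : ℝ) ≤ 1 / ((n : ℝ) + 1) ^ 3 := by positivity
    push_cast at this
    have h3 : |1 / (-((n : ℝ) + 1)) ^ 3| = 1 / ((n : ℝ) + 1) ^ 3 := by
      rw [show (-((n : ℝ) + 1)) ^ 3 = -(((n : ℝ) + 1) ^ 3) by ring, one_div, inv_neg, abs_neg,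
        ← one_div, abs_of_nonneg h0]
    rwa [h3] at this)
  simp only [Nat.cast_zero, zero_add] at hpos hneg
  rw [hb1] at hpos
  have hsplit := tsum_of_add_one_of_neg_add_one (f := b)
    (hsb.comp_injective (i := fun n : ℕ => (n : ℤ) + 1) (by intro a c h; simpa using h))
    (hsb.comp_injective (i := fun n : ℕ => -((n : ℤ) + 1)) (by intro a c h; simpa using h))
  have ht := tailSum_lt
  rw [hb0] at hsplit
  have : 0 < wSum N 1 - wSum N x := by
    rw [hsum, hsplit]
    linarith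
  linarith

theorem wSum_eq_imp (N : ℕ) (hN : 3 ≤ N) (x : ZMod N) (h : wSum N x = wSum N 1) : x = 1 := by
  by_contra hx
  exact (wSum_lt_of_ne_one N hN x hx).ne h

/-- **The stabiliser of the separating form.** -/
theorem eisOne_stabiliser (N : ℕ) [NeZero N] (hN : 3 ≤ N) (γ : SL(2, ℤ))
    (h : ⇑(eisOne N) ∣[(3 : ℤ)] γ = ⇑(eisOne N)) : γ ∈ Gamma1 N := by
  rw [coe_eisOne] at h
  -- values at the cusps
  have key : ∀ δ : SL(2, ℤ),
      wSum N (-(((γ * δ).1 1 0 : ℤ) : ZMod N)) = wSum N (-((δ.1 1 0 : ℤ) : ZMod N)) := by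
    intro δ
    have h1 : eisSet (oneSet N) 3 ∣[(3 : ℤ)] (γ * δ) = eisSet (oneSet N) 3 ∣[(3 : ℤ)] δ := by
      rw [SlashAction.slash_mul, h]
    rw [eisSet_slash, eisSet_slash] at h1
    have h2 := tendsto_eisSet (k := 3) (by norm_num) (setSMul (oneSet N) (γ * δ))
    rw [h1] at h2
    have h3 := tendsto_nhds_unique h2
      (tendsto_eisSet (k := 3) (by norm_num) (setSMul (oneSet N) δ))
    rw [eisSetInfty_setSMul_oneSet, eisSetInfty_setSMul_oneSet] at h3
    exact_mod_cast h3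
  -- the two test matrices
  let δ₁ : SL(2, ℤ) := ⟨!![1, 0; -1, 1], by simp [Matrix.det_fin_two]⟩
  let δ₂ : SL(2, ℤ) := ⟨!![0, 1; -1, 0], by simp [Matrix.det_fin_two]⟩
  have e1 : (γ * δ₁).1 1 0 = γ.1 1 0 - γ.1 1 1 := by
    have hm : (γ * δ₁).1 = γ.1 * δ₁.1 := Matrix.SpecialLinearGroup.coe_mul γ δ₁
    rw [hm, Matrix.mul_apply, Fin.sum_univ_two]
    simp [δ₁]
    ring
  have e2 : (γ * δ₂).1 1 0 = - γ.1 1 1 := by
    have hm : (γ * δ₂).1 = γ.1 * δ₂.1 := Matrix.SpecialLinearGroup.coe_mul γ δ₂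
    rw [hm, Matrix.mul_apply, Fin.sum_univ_two]
    simp [δ₂]
  have k1 := key δ₁
  have k2 := key δ₂
  rw [e1] at k1
  rw [e2] at k2
  have hd1 : (δ₁.1 1 0 : ℤ) = -1 := by simp [δ₁]
  have hd2 : (δ₂.1 1 0 : ℤ) = -1 := by simp [δ₂]
  rw [hd1] at k1
  rw [hd2] at k2
  have c1 : (-(((-1 : ℤ) : ℤ) : ZMod N)) = 1 := by simp
  rw [c1] at k1 k2
  have r1 := wSum_eq_imp N hN _ k1
  have r2 := wSum_eq_imp N hN _ k2
  push_cast at r1 r2
  have hd : ((γ.1 1 1 : ℤ) : ZMod N) = 1 := by simpa using r2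
  have hc : ((γ.1 1 0 : ℤ) : ZMod N) = 0 := by
    have : ((γ.1 1 1 : ℤ) : ZMod N) - ((γ.1 1 0 : ℤ) : ZMod N) = 1 := by
      rw [← r1]; ring
    rw [hd] at this
    have h0 : (1 : ZMod N) - ((γ.1 1 0 : ℤ) : ZMod N) = 1 - 0 := by rw [this]; ring
    exact sub_right_injective h0
  have ha : ((γ.1 0 0 : ℤ) : ZMod N) = 1 := by
    have hdet : γ.1 0 0 * γ.1 1 1 - γ.1 0 1 * γ.1 1 0 = 1 := by
      have := γ.2
      rw [Matrix.det_fin_two] at this
      exact this
    have := congrArg (fun t : ℤ => (t : ZMod N)) hdet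
    simp only [Int.cast_sub, Int.cast_mul, Int.cast_one] at this
    rw [hd, hc] at this
    simpa using this
  exact (Gamma1_mem N γ).mpr ⟨ha, hd, hc⟩

end

end Fermat.Agent.H79
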