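import Mathlib
import Fermat.Agent.H79.DS.SepStab

/-!
# P-DS / DS-1a: the `q`-expansion of the weight-3 separating form

`sepForm N = ((-2πi)³/2)⁻¹ • eisOne N` has the integral `q`-expansion
`∑ₙ (∑_{c m = n} ([c ≡ 1] - [c ≡ -1]) m²) qⁿ`, and for `3 ≤ N` its stabiliser in `SL(2, ℤ)` is
`Γ₁(N)`.
-/

set_option autoImplicit false

open ModularForm UpperHalfPlane SlashInvariantForm CongruenceSubgroup EisensteinSeries
open Filter Topology

open scoped MatrixGroups Manifold Matrix Real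

namespace Fermat.Agent.H79

noncomputable section

theorem tsum_eisSummand_pnat (n : ℕ+) (z : ℍ) :
    ∑' d : ℤ, eisSummand 3 ![((n : ℕ) : ℤ), d] z
      = ((-2 * π * Complex.I) ^ 3 / 2) *
          ∑' m : ℕ+, ((m : ℕ) : ℂ) ^ 2 *
            Complex.exp (2 * π * Complex.I * z) ^ ((n : ℕ) * (m : ℕ)) := by
  have hz : 0 < (((n : ℕ) : ℂ) * (z : ℂ)).im := by
    simpa using z.2
  have H := EisensteinSeries.qExpansion_identity_pnat (k := 2) (by norm_num)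
    ⟨((n : ℕ) : ℂ) * z, hz⟩
  have e1 : ∀ d : ℤ, eisSummand 3 ![((n : ℕ) : ℤ), d] z
      = 1 / ((((n : ℕ) : ℂ) * (z : ℂ)) + d) ^ (2 + 1) := by
    intro d
    simp only [eisSummand, Matrix.cons_val_zero, Matrix.cons_val_one]
    rw [zpow_neg, one_div]
    norm_cast
  have e2 : ∀ m : ℕ+, ((m : ℕ) : ℂ) ^ 2 *
        Complex.exp (2 * π * Complex.I * z) ^ ((n : ℕ) * (m : ℕ))
      = (m : ℂ) ^ 2 * Complex.exp (2 * π * Complex.I * (((n : ℕ) : ℂ) * (z : ℂ))) ^ (m : ℕ) := by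
    intro m
    rw [pow_mul, ← Complex.exp_nat_mul _ (n : ℕ)]
    congr 3
    ring
  simp_rw [e1, e2]
  rw [show ((-2 * π * Complex.I) ^ 3 / 2 : ℂ)
      = (-2 * π * Complex.I) ^ (2 + 1) / (Nat.factorial 2 : ℕ) by
    norm_num [Nat.factorial]]
  exact H

theorem eisSummand_neg_neg (c d : ℤ) (z : ℍ) :
    eisSummand 3 ![-c, -d] z = - eisSummand 3 ![c, d] z := by
  simp only [eisSummand, Matrix.cons_val_zero, Matrix.cons_val_one]
  push_cast
  rw [show -(c : ℂ) * (z : ℂ) + -(d : ℂ) = -((c : ℂ) * z + d) by ring]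
  rw [zpow_neg, zpow_neg, ← inv_neg]
  congr 1
  exact Odd.neg_zpow (by decide) _

theorem tsum_eisSummand_neg_pnat (n : ℕ+) (z : ℍ) :
    ∑' d : ℤ, eisSummand 3 ![-((n : ℕ) : ℤ), d] z
      = -(((-2 * π * Complex.I) ^ 3 / 2) *
          ∑' m : ℕ+, ((m : ℕ) : ℂ) ^ 2 *
            Complex.exp (2 * π * Complex.I * z) ^ ((n : ℕ) * (m : ℕ))) := by
  rw [← tsum_eisSummand_pnat, ← tsum_neg, ← tsum_comp_neg]
  refine tsum_congr fun d => ?_
  rw [eisSummand_neg_neg]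

/-- The sign weight `[n ≡ 1] - [n ≡ -1]`. -/
def epsOne (N : ℕ) (n : ℕ) : ℤ :=
  (if ((n : ℕ) : ZMod N) = 1 then 1 else 0) - (if ((n : ℕ) : ZMod N) = -1 then 1 else 0)

theorem abs_epsOne_le (N : ℕ) (n : ℕ) : |epsOne N n| ≤ 1 := by
  unfold epsOne
  split_ifs <;> simp

/-- The coefficients of the separating form. -/
def sepCoeff (N : ℕ) (e : ℕ) : ℤ :=
  ∑ x ∈ e.divisorsAntidiagonal, epsOne N x.1 * (x.2 : ℤ) ^ 2

theorem hasSum_sepCoeff (N : ℕ) (q : ℂ) (hq : ‖q‖ < 1) :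
    HasSum (fun e : ℕ => (sepCoeff N e : ℂ) * q ^ e)
      (∑' n : ℕ+, (epsOne N n : ℂ) *
        ∑' m : ℕ+, ((m : ℕ) : ℂ) ^ 2 * q ^ ((n : ℕ) * (m : ℕ))) := by
  set F : ℕ+ × ℕ+ → ℂ := fun c =>
    (epsOne N c.1 : ℂ) * (((c.2 : ℕ) : ℂ) ^ 2 * q ^ ((c.1 : ℕ) * (c.2 : ℕ))) with hF
  have hs0 : Summable fun c : ℕ+ × ℕ+ => ((c.2 : ℕ) : ℂ) ^ 2 * q ^ ((c.1 : ℕ) * (c.2 : ℕ)) := by
    simpa using summable_prod_mul_pow (𝕜 := ℂ) 2 hq
  have hsF : Summable F := by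
    refine Summable.of_norm_bounded hs0.norm (fun c => ?_)
    simp only [hF, norm_mul]
    have h1 : ‖(epsOne N c.1 : ℂ)‖ ≤ 1 := by
      rw [Complex.norm_intCast]
      exact_mod_cast abs_epsOne_le N c.1
    calc ‖(epsOne N c.1 : ℂ)‖ * (‖((c.2 : ℕ) : ℂ) ^ 2‖ * ‖q ^ ((c.1 : ℕ) * (c.2 : ℕ))‖)
        ≤ 1 * (‖((c.2 : ℕ) : ℂ) ^ 2‖ * ‖q ^ ((c.1 : ℕ) * (c.2 : ℕ))‖) := by gcongr
      _ = _ := one_mul _
  have hval : (∑' n : ℕ+, (epsOne N n : ℂ) *
        ∑' m : ℕ+, ((m : ℕ) : ℂ) ^ 2 * q ^ ((n : ℕ) * (m : ℕ))) = ∑' c, F c := by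
    rw [hsF.tsum_prod]
    refine tsum_congr fun n => ?_
    rw [← tsum_mul_left]
  rw [hval]
  have h1 : HasSum (F ∘ sigmaAntidiagonalEquivProd) (∑' c, F c) :=
    (sigmaAntidiagonalEquivProd.hasSum_iff).mpr hsF.hasSum
  have h2 : HasSum (fun n : ℕ+ => (sepCoeff N n : ℂ) * q ^ (n : ℕ)) (∑' c, F c) := by
    refine h1.sigma (fun n => ?_)
    have hfin := hasSum_fintype
      (fun x : (n : ℕ).divisorsAntidiagonal => (F ∘ sigmaAntidiagonalEquivProd) ⟨n, x⟩)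
    convert hfin using 1
    unfold sepCoeff
    push_cast
    rw [Finset.sum_mul, Finset.univ_eq_attach,
      ← Finset.sum_attach (n : ℕ).divisorsAntidiagonal]
    refine Finset.sum_congr rfl fun x _ => ?_
    have hx := (Nat.mem_divisorsAntidiagonal.mp x.2).1
    simp only [hF, Function.comp_apply, sigmaAntidiagonalEquivProd, divisorsAntidiagonalFactors,
      Equiv.coe_fn_mk, PNat.mk_coe]
    rw [hx]
    ring
  have h3 := (hasSum_pnat_iff (f := fun e : ℕ => (sepCoeff N e : ℂ) * q ^ e)).mp h2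
  simpa [sepCoeff] using h3

theorem eisSet_oneSet_eq (N : ℕ) (hN : 2 ≤ N) (z : ℍ) :
    eisSet (oneSet N) 3 z = ((-2 * π * Complex.I) ^ 3 / 2) *
      ∑' n : ℕ+, (epsOne N n : ℂ) *
        ∑' m : ℕ+, ((m : ℕ) : ℂ) ^ 2 *
          Complex.exp (2 * π * Complex.I * z) ^ ((n : ℕ) * (m : ℕ)) := by
  have : Fact (1 < N) := ⟨hN⟩
  set C : ℂ := (-2 * π * Complex.I) ^ 3 / 2 with hC
  set L : ℕ+ → ℂ := fun n => ∑' m : ℕ+, ((m : ℕ) : ℂ) ^ 2 *
          Complex.exp (2 * π * Complex.I * z) ^ ((n : ℕ) * (m : ℕ)) with hL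
  have hs : Summable fun x : ℤ × ℤ =>
      if ((x.1 : ℤ) : ZMod N) = 1 then eisSummand 3 ![x.1, x.2] z else 0 := by
    have h0 : Summable fun x : ℤ × ℤ => eisSummand 3 ![x.1, x.2] z := by
      simpa using summable_prod_eisSummand (k := 3) le_rfl z
    refine Summable.of_norm_bounded h0.norm (fun x => ?_)
    split_ifs
    · exact le_rfl
    · simp
  have h1 : eisSet (oneSet N) 3 z = ∑' x : ℤ × ℤ,
      if ((x.1 : ℤ) : ZMod N) = 1 then eisSummand 3 ![x.1, x.2] z else 0 := by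
    unfold eisSet
    rw [tsum_subtype (oneSet N) (fun v => eisSummand 3 v z),
      ← (finTwoArrowEquiv ℤ).symm.tsum_eq]
    refine tsum_congr fun x => ?_
    rw [finTwoArrowEquiv_symm_apply]
    by_cases h : ((x.1 : ℤ) : ZMod N) = 1
    · rw [if_pos h, Set.indicator_of_mem (show (![x.1, x.2] : Fin 2 → ℤ) ∈ oneSet N from h)]
    · rw [if_neg h, Set.indicator_of_notMem (show (![x.1, x.2] : Fin 2 → ℤ) ∉ oneSet N from h)]
  rw [h1, hs.tsum_prod]
  set g : ℤ → ℂ := fun c =>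
    ∑' d : ℤ, if ((c : ℤ) : ZMod N) = 1 then eisSummand 3 ![c, d] z else 0 with hg
  have hsg : Summable g := hs.prod
  rw [tsum_int_eq_zero_add_tsum_pnat hsg]
  have hg0 : g 0 = 0 := by
    simp only [hg]
    have : ¬ (((0 : ℤ) : ZMod N) = 1) := by
      rw [Int.cast_zero]
      exact zero_ne_one
    simp [this]
  have hgp : ∀ n : ℕ+, g (n : ℕ) = (if ((n : ℕ) : ZMod N) = 1 then 1 else 0) * (C * L n) := by
    intro n
    simp only [hg]
    by_cases h : ((n : ℕ) : ZMod N) = 1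
    · have h' : (((n : ℕ) : ℤ) : ZMod N) = 1 := by exact_mod_cast h
      simp only [h', if_true, h, one_mul]
      exact tsum_eisSummand_pnat n z
    · have h' : ¬ (((n : ℕ) : ℤ) : ZMod N) = 1 := by exact_mod_cast h
      simp [h', h]
  have hgn : ∀ n : ℕ+, g (-((n : ℕ) : ℤ))
      = -((if ((n : ℕ) : ZMod N) = -1 then 1 else 0) * (C * L n)) := by
    intro n
    simp only [hg]
    have hiff : ((-((n : ℕ) : ℤ) : ℤ) : ZMod N) = 1 ↔ ((n : ℕ) : ZMod N) = -1 := by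
      push_cast
      exact neg_eq_iff_eq_neg
    by_cases h : ((n : ℕ) : ZMod N) = -1
    · simp only [hiff.mpr h, if_true, h, one_mul]
      exact tsum_eisSummand_neg_pnat n z
    · have h' : ¬ ((-((n : ℕ) : ℤ) : ℤ) : ZMod N) = 1 := fun h'' => h (hiff.mp h'')
      simp only [h', h, if_false, tsum_zero, zero_mul, neg_zero]
  have hs1 : Summable fun n : ℕ+ => g (n : ℕ) :=
    hsg.comp_injective (i := fun n : ℕ+ => ((n : ℕ) : ℤ)) (by
      intro a b h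
      have h' : ((a : ℕ) : ℤ) = ((b : ℕ) : ℤ) := h
      exact PNat.coe_injective (by exact_mod_cast h'))
  have hs2 : Summable fun n : ℕ+ => g (-((n : ℕ) : ℤ)) :=
    hsg.comp_injective (i := fun n : ℕ+ => -((n : ℕ) : ℤ)) (by
      intro a b h
      have h' : -((a : ℕ) : ℤ) = -((b : ℕ) : ℤ) := h
      exact PNat.coe_injective (by exact_mod_cast neg_injective h'))
  rw [hg0, zero_add, ← hs1.tsum_add hs2, ← tsum_mul_left]
  refine tsum_congr fun n => ?_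
  rw [hgp, hgn]
  unfold epsOne
  push_cast
  ring

/-- The normalising constant `(-2πi)³/2`. -/
def sepConst : ℂ := (-2 * π * Complex.I) ^ 3 / 2

theorem sepConst_ne_zero : sepConst ≠ 0 := by
  unfold sepConst
  have hpi : (π : ℂ) ≠ 0 := Complex.ofReal_ne_zero.mpr Real.pi_ne_zero
  have h2 : (-2 * (π : ℂ) * Complex.I) ≠ 0 :=
    mul_ne_zero (mul_ne_zero (by norm_num) hpi) Complex.I_ne_zero
  exact div_ne_zero (pow_ne_zero 3 h2) (by norm_num)

/-- **The separating form** of weight 3 on `Γ₁(N)`. -/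
def sepForm (N : ℕ) [NeZero N] : ModularForm (Gamma1 N) 3 := sepConst⁻¹ • eisOne N

theorem coe_sepForm (N : ℕ) [NeZero N] : ⇑(sepForm N) = sepConst⁻¹ • eisSet (oneSet N) 3 := rfl

theorem hasSum_sepForm (N : ℕ) [NeZero N] (hN : 2 ≤ N) (τ : ℍ) :
    HasSum (fun m : ℕ => (sepCoeff N m : ℂ) • Function.Periodic.qParam (1 : ℝ) τ ^ m)
      (sepForm N τ) := by
  have hq : Function.Periodic.qParam (1 : ℝ) τ = Complex.exp (2 * π * Complex.I * τ) := by
    simp [Function.Periodic.qParam]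
  have hval : sepForm N τ = ∑' n : ℕ+, (epsOne N n : ℂ) *
        ∑' m : ℕ+, ((m : ℕ) : ℂ) ^ 2 *
          Complex.exp (2 * π * Complex.I * τ) ^ ((n : ℕ) * (m : ℕ)) := by
    rw [coe_sepForm, Pi.smul_apply, eisSet_oneSet_eq N hN τ, smul_eq_mul, ← mul_assoc]
    change sepConst⁻¹ * sepConst * _ = _
    rw [inv_mul_cancel₀ sepConst_ne_zero, one_mul]
  rw [hval, hq]
  simpa [smul_eq_mul] using
    hasSum_sepCoeff N (Complex.exp (2 * π * Complex.I * τ)) (norm_exp_two_pi_I_lt_one τ)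

/-- **Integrality** of the `q`-expansion of the separating form. -/
theorem qExpansion_sepForm_coeff (N : ℕ) [NeZero N] (hN : 2 ≤ N) (n : ℕ) :
    PowerSeries.coeff n (qExpansion 1 (sepForm N)) = (sepCoeff N n : ℂ) := by
  have h1 : (1 : ℝ) ∈
      (Subgroup.map (Matrix.SpecialLinearGroup.mapGL ℝ) (Gamma1 N)).strictPeriods := by
    rw [CongruenceSubgroup.strictPeriods_Gamma1]
    exact AddSubgroup.mem_zmultiples 1
  exact (ModularFormClass.qExpansion_coeff_unique one_pos h1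
    (fun τ => hasSum_sepForm N hN τ) n).symm

theorem sepForm_integral (N : ℕ) [NeZero N] (hN : 2 ≤ N) (n : ℕ) :
    ∃ m : ℤ, PowerSeries.coeff n (qExpansion 1 (sepForm N)) = (m : ℂ) :=
  ⟨sepCoeff N n, qExpansion_sepForm_coeff N hN n⟩

/-- **The stabiliser** of the separating form is `Γ₁(N)`. -/
theorem sepForm_stabiliser (N : ℕ) [NeZero N] (hN : 3 ≤ N) (γ : SL(2, ℤ))
    (h : ⇑(sepForm N) ∣[(3 : ℤ)] γ = ⇑(sepForm N)) : γ ∈ Gamma1 N := by
  refine eisOne_stabiliser N hN γ ?_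
  rw [coe_eisOne]
  rw [coe_sepForm, ModularForm.SL_smul_slash] at h
  have h2 := congrArg (fun f : ℍ → ℂ => sepConst • f) h
  simp only [smul_smul, mul_inv_cancel₀ sepConst_ne_zero, one_smul] at h2
  exact h2

end

end Fermat.Agent.H79
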