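import Mathlib
import Fermat.Agent.H75.Interpolation

/-!
# P-DS / DS-1a: Lagrange interpolation over the cosets of `Γ₁(N)` in `SL(2, ℤ)`

Port of `Fermat.Agent.H75.Interpolation` (P-INT, level `Γ₀(N)`, separating form of weight 4) to
`Γ₁(N)` and a separating form of arbitrary weight `w₀`.
-/

set_option autoImplicit false

open UpperHalfPlane ModularForm CongruenceSubgroup SlashInvariantForm
open scoped MatrixGroups ModularForm Manifold

namespace Fermat.Agent.H79.G1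

section conj

variable {N : ℕ} {k w₀ : ℤ}

local notation "𝒬" =>
  𝒮ℒ ⧸ (Subgroup.subgroupOf ((Gamma1 N : Subgroup SL(2, ℤ)) : Subgroup (GL (Fin 2) ℝ)) 𝒮ℒ)

/-- Transformation of the conjugates under `SL(2, ℤ)`. -/
theorem quotientFunc_smul_apply (f : ModularForm (Gamma1 N) k) (q : 𝒬) (γ : SL(2, ℤ)) (z : ℍ) :
    quotientFunc f q (γ • z) = denom γ z ^ k * quotientFunc f ((Fermat.Agent.H75.slElt γ)⁻¹ • q) z := by
  have h := congrFun (quotientFunc_smul f (Fermat.Agent.H75.slElt γ).2 q) z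
  have h2 : (quotientFunc f q ∣[k] (Fermat.Agent.H75.slElt γ).1) z = (quotientFunc f q ∣[k] γ) z := rfl
  rw [h2, SL_slash_apply] at h
  have hd : denom γ z ≠ 0 := denom_ne_zero γ z
  have h3 : (⟨(Fermat.Agent.H75.slElt γ).1, (Fermat.Agent.H75.slElt γ).2⟩ : 𝒮ℒ) = Fermat.Agent.H75.slElt γ := rfl
  rw [h3] at h
  rw [← h, mul_comm, mul_assoc, ← zpow_add₀ hd]
  simp

theorem mdiff_quotientFunc (f : ModularForm (Gamma1 N) k) (q : 𝒬) : MDiff (quotientFunc f q) := by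
  induction q using Quotient.inductionOn with
  | h r => exact (ModularForm.translate f r.1⁻¹).holo'

theorem isBoundedAtImInfty_quotientFunc [NeZero N] (f : ModularForm (Gamma1 N) k) (q : 𝒬) :
    IsBoundedAtImInfty (quotientFunc f q) := by
  induction q using Quotient.inductionOn with
  | h r =>
    obtain ⟨r, γ, rfl⟩ := r
    have : quotientFunc f (⟦⟨Matrix.SpecialLinearGroup.mapGL ℝ γ, γ, rfl⟩⟧ : 𝒬)
        = (⇑f) ∣[k] γ⁻¹ := by
      rw [quotientFunc_mk]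
      rw [SL_slash]
      congr 1
      exact (map_inv (Matrix.SpecialLinearGroup.mapGL ℝ) γ).symm
    rw [this]
    exact ModularFormClass.bdd_at_infty_slash f γ⁻¹

theorem quotientFunc_one (f : ModularForm (Gamma1 N) k) :
    quotientFunc f ((1 : 𝒮ℒ) : 𝒬) = ⇑f := by
  have : ((1 : 𝒮ℒ) : 𝒬) = ⟦1⟧ := rfl
  rw [this, quotientFunc_mk]
  simp

open Finset in
/-- The interpolation coefficients. -/
noncomputable def interpCoeff [Fintype 𝒬] [DecidableEq 𝒬] (f : ModularForm (Gamma1 N) k)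
    (t : ModularForm (Gamma1 N) w₀) (n : ℕ) (z : ℍ) : ℂ :=
  ∑ q : 𝒬, quotientFunc f q z *
    ∑ S ∈ powersetCard n (univ.erase q), ∏ l ∈ S, (-(quotientFunc t l z))

open Finset in
theorem interpCoeff_smul [Fintype 𝒬] [DecidableEq 𝒬] (f : ModularForm (Gamma1 N) k)
    (t : ModularForm (Gamma1 N) w₀) (n : ℕ) (γ : SL(2, ℤ)) (z : ℍ) :
    interpCoeff f t n (γ • z) = denom γ z ^ k * (denom γ z ^ w₀) ^ n * interpCoeff f t n z := by
  unfold interpCoeff
  set π : Equiv.Perm 𝒬 := MulAction.toPerm (Fermat.Agent.H75.slElt γ)⁻¹ with hπ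
  have hπ' : ∀ q, π q = (Fermat.Agent.H75.slElt γ)⁻¹ • q := fun q => rfl
  have key : ∀ q : 𝒬, quotientFunc f q (γ • z) *
      ∑ S ∈ powersetCard n (univ.erase q), ∏ l ∈ S, (-(quotientFunc t l (γ • z)))
      = denom γ z ^ k * (denom γ z ^ w₀) ^ n * (quotientFunc f (π q) z *
        ∑ S ∈ powersetCard n (univ.erase (π q)), ∏ l ∈ S, (-(quotientFunc t l z))) := by
    intro q
    rw [quotientFunc_smul_apply f q γ z]
    have : ∀ S ∈ powersetCard n (univ.erase q), ∏ l ∈ S, (-(quotientFunc t l (γ • z)))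
        = ∏ l ∈ S, (-(denom γ z ^ w₀ * (fun l => quotientFunc t l z) (π l))) := by
      intro S _
      refine prod_congr rfl fun l _ => ?_
      rw [quotientFunc_smul_apply t l γ z]
      rfl
    rw [sum_congr rfl this, Fermat.Agent.H75.esum_perm π (fun l => quotientFunc t l z) (denom γ z ^ w₀) q n]
    rw [← hπ' q]
    ring
  rw [Finset.sum_congr rfl (fun q _ => key q), ← Finset.mul_sum]
  congr 1
  exact Equiv.sum_comp π (fun q => quotientFunc f q z *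
    ∑ S ∈ powersetCard n (univ.erase q), ∏ l ∈ S, (-(quotientFunc t l z)))

open Finset in
theorem interpCoeff_eq_pi [Fintype 𝒬] [DecidableEq 𝒬] (f : ModularForm (Gamma1 N) k)
    (t : ModularForm (Gamma1 N) w₀) (n : ℕ) :
    interpCoeff f t n = ∑ q : 𝒬, quotientFunc f q *
      ∑ S ∈ powersetCard n (univ.erase q), ∏ l ∈ S, (-(quotientFunc t l)) := by
  funext z
  simp only [interpCoeff, Finset.sum_apply, Pi.mul_apply, Finset.prod_apply, Pi.neg_apply]

open Finset in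
theorem mdiff_interpCoeff [Fintype 𝒬] [DecidableEq 𝒬] (f : ModularForm (Gamma1 N) k)
    (t : ModularForm (Gamma1 N) w₀) (n : ℕ) : MDiff (interpCoeff f t n) := by
  rw [interpCoeff_eq_pi]
  refine MDifferentiable.sum fun q _ => ?_
  refine MDifferentiable.mul (mdiff_quotientFunc f q) ?_
  refine MDifferentiable.sum fun S _ => ?_
  refine MDifferentiable.prod fun l _ => ?_
  exact (mdiff_quotientFunc t l).neg

open Finset Filter in
theorem isBoundedAtImInfty_interpCoeff [NeZero N] [Fintype 𝒬] [DecidableEq 𝒬]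
    (f : ModularForm (Gamma1 N) k)
    (t : ModularForm (Gamma1 N) w₀) (n : ℕ) : IsBoundedAtImInfty (interpCoeff f t n) := by
  rw [interpCoeff_eq_pi]
  have hmem : ∀ {φ : ℍ → ℂ}, IsBoundedAtImInfty φ ↔ φ ∈ boundedFilterSubalgebra ℂ atImInfty :=
    Iff.rfl
  rw [hmem]
  refine Subalgebra.sum_mem _ fun q _ => ?_
  refine Subalgebra.mul_mem _ (hmem.1 (isBoundedAtImInfty_quotientFunc f q)) ?_
  refine Subalgebra.sum_mem _ fun S _ => ?_
  refine Subalgebra.prod_mem _ fun l _ => ?_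
  exact Subalgebra.neg_mem _ (hmem.1 (isBoundedAtImInfty_quotientFunc t l))

/-- The interpolation coefficient `interpCoeff f t n` is a level-one modular form of weight
`k + 4 n`. -/
theorem exists_levelOne_interpCoeff [NeZero N] [Fintype 𝒬] [DecidableEq 𝒬]
    (f : ModularForm (Gamma1 N) k) (t : ModularForm (Gamma1 N) w₀) (n : ℕ) (w : ℤ)
    (hw : w = k + w₀ * (n : ℤ)) :
    ∃ g : ModularForm 𝒮ℒ w, ⇑g = interpCoeff f t n := by
  refine Fermat.Agent.H75.exists_levelOne_of_invariant w _ ?_ (mdiff_interpCoeff f t n)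
    (isBoundedAtImInfty_interpCoeff f t n)
  intro γ
  funext z
  rw [SL_slash_apply, interpCoeff_smul]
  have hd : denom γ z ≠ 0 := denom_ne_zero γ z
  have h1 : denom γ z ^ k * (denom γ z ^ w₀) ^ n * denom γ z ^ (-w) = 1 := by
    rw [← zpow_natCast (denom γ z ^ w₀) n, ← zpow_mul, ← zpow_add₀ hd, ← zpow_add₀ hd, hw]
    have : k + w₀ * (n : ℤ) + -(k + w₀ * (n : ℤ)) = 0 := by ring
    rw [this, zpow_zero]
  calc denom γ z ^ k * (denom γ z ^ w₀) ^ n * interpCoeff f t n z * denom γ z ^ (-w)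
      = (denom γ z ^ k * (denom γ z ^ w₀) ^ n * denom γ z ^ (-w)) * interpCoeff f t n z := by
        ring
    _ = interpCoeff f t n z := by rw [h1, one_mul]

open Finset in
/-- The interpolation identity, pointwise. -/
theorem interp_identity [Fintype 𝒬] [DecidableEq 𝒬]
    (f : ModularForm (Gamma1 N) k) (t : ModularForm (Gamma1 N) w₀) (z : ℍ) :
    f z * ∏ l ∈ univ.erase (((1 : 𝒮ℒ) : 𝒬)), (t z - quotientFunc t l z) =
      ∑ m ∈ range (Fintype.card 𝒬), interpCoeff f t (Fintype.card 𝒬 - 1 - m) z * t z ^ m := by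
  have hcard : ∀ q : 𝒬, (univ.erase q).card = Fintype.card 𝒬 - 1 := fun q => by
    rw [card_erase_of_mem (mem_univ q), card_univ]
  have hpos : 0 < Fintype.card 𝒬 := Fintype.card_pos_iff.mpr ⟨((1 : 𝒮ℒ) : 𝒬)⟩
  have hexp : ∀ q : 𝒬, ∏ l ∈ univ.erase q, (t z - quotientFunc t l z) =
      ∑ m ∈ range (Fintype.card 𝒬), (∑ S ∈ powersetCard (Fintype.card 𝒬 - 1 - m) (univ.erase q),
        ∏ l ∈ S, (-(quotientFunc t l z))) * t z ^ m := by
    intro q
    rw [Fermat.Agent.H75.prod_sub_expand (univ.erase q) (fun l => quotientFunc t l z) (t z), hcard q,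
      Nat.sub_add_cancel hpos]
  have hsum : ∑ m ∈ range (Fintype.card 𝒬), interpCoeff f t (Fintype.card 𝒬 - 1 - m) z * t z ^ m
      = ∑ q : 𝒬, quotientFunc f q z * ∏ l ∈ univ.erase q, (t z - quotientFunc t l z) := by
    simp only [interpCoeff, hexp, Finset.sum_mul, Finset.mul_sum]
    rw [Finset.sum_comm]
    refine sum_congr rfl fun q _ => sum_congr rfl fun m _ => ?_
    refine sum_congr rfl fun S _ => ?_
    ring
  rw [hsum]
  rw [Finset.sum_eq_single (((1 : 𝒮ℒ) : 𝒬))]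
  · rw [quotientFunc_one f]
  · intro q _ hq
    have hmem : (((1 : 𝒮ℒ) : 𝒬)) ∈ univ.erase q := mem_erase.mpr ⟨fun h => hq h.symm, mem_univ _⟩
    rw [Finset.prod_eq_zero hmem, mul_zero]
    rw [quotientFunc_one t, sub_self]
  · intro h
    exact absurd (mem_univ _) h

open Finset in
/-- The discriminant-like factor is nonzero when `t` separates cosets. -/
theorem interp_denominator_ne_zero [Fintype 𝒬] [DecidableEq 𝒬]
    (t : ModularForm (Gamma1 N) w₀)
    (ht : ∀ γ : SL(2, ℤ), (⇑t ∣[w₀] γ = ⇑t) → γ ∈ Gamma1 N) :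
    (fun z : ℍ => ∏ l ∈ univ.erase (((1 : 𝒮ℒ) : 𝒬)), (t z - quotientFunc t l z)) ≠ 0 := by
  have hpi : (fun z : ℍ => ∏ l ∈ univ.erase (((1 : 𝒮ℒ) : 𝒬)), (t z - quotientFunc t l z))
      = ∏ l ∈ univ.erase (((1 : 𝒮ℒ) : 𝒬)), (⇑t - quotientFunc t l) := by
    funext z
    simp only [Finset.prod_apply, Pi.sub_apply]
  rw [hpi]
  intro h0
  rw [UpperHalfPlane.prod_eq_zero_iff
    (fun l _ => (ModularFormClass.holo t).sub (mdiff_quotientFunc t l))] at h0
  obtain ⟨l, hl, hl0⟩ := h0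
  rw [mem_erase] at hl
  apply hl.1
  induction l using Quotient.inductionOn with
  | h r =>
    obtain ⟨r, γ, rfl⟩ := r
    have hq : quotientFunc t (⟦⟨Matrix.SpecialLinearGroup.mapGL ℝ γ, γ, rfl⟩⟧ : 𝒬)
        = (⇑t) ∣[w₀] γ⁻¹ := by
      rw [quotientFunc_mk]
      rw [SL_slash]
      congr 1
      exact (map_inv (Matrix.SpecialLinearGroup.mapGL ℝ) γ).symm
    rw [hq] at hl0
    have hγ : γ⁻¹ ∈ Gamma1 N := ht γ⁻¹ (sub_eq_zero.mp hl0).symm
    symm
    show ((1 : 𝒮ℒ) : 𝒬) = ((⟨Matrix.SpecialLinearGroup.mapGL ℝ γ, γ, rfl⟩ : 𝒮ℒ) : 𝒬)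
    rw [QuotientGroup.eq]
    rw [Subgroup.mem_subgroupOf]
    simp only [inv_one, one_mul]
    exact ⟨γ, inv_mem_iff.mp hγ, rfl⟩

end conj

section main

variable (N : ℕ) [NeZero N] {w₀ : ℤ}

theorem exists_interpolation (t : ModularForm (Gamma1 N) w₀)
    (ht : ∀ γ : SL(2, ℤ), (⇑t ∣[w₀] γ = ⇑t) → γ ∈ Gamma1 N) :
    ∃ (μ : ℕ) (D : ℍ → ℂ), 0 < μ ∧ D ≠ 0 ∧
      ∀ (k : ℤ) (f : ModularForm (Gamma1 N) k),
        ∃ ℓ : ℕ → ℍ → ℂ,
          (∀ m < μ, ∃ g : ModularForm 𝒮ℒ (k + w₀ * ((μ : ℤ) - 1 - (m : ℤ))), ⇑g = ℓ m) ∧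
          ⇑f * D = ∑ m ∈ Finset.range μ, ℓ m * (⇑t) ^ m := by
  classical
  let : Fintype (𝒮ℒ ⧸ (Subgroup.subgroupOf
    ((Gamma1 N : Subgroup SL(2, ℤ)) : Subgroup (GL (Fin 2) ℝ)) 𝒮ℒ)) := Fintype.ofFinite _
  refine ⟨Fintype.card (𝒮ℒ ⧸ (Subgroup.subgroupOf
      ((Gamma1 N : Subgroup SL(2, ℤ)) : Subgroup (GL (Fin 2) ℝ)) 𝒮ℒ)),
    fun z : ℍ => ∏ l ∈ Finset.univ.erase (((1 : 𝒮ℒ) : 𝒮ℒ ⧸ (Subgroup.subgroupOf
      ((Gamma1 N : Subgroup SL(2, ℤ)) : Subgroup (GL (Fin 2) ℝ)) 𝒮ℒ))),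
        (t z - quotientFunc t l z),
    Fintype.card_pos_iff.mpr ⟨((1 : 𝒮ℒ) : _)⟩, interp_denominator_ne_zero t ht, ?_⟩
  intro k f
  refine ⟨fun m => interpCoeff f t (Fintype.card (𝒮ℒ ⧸ (Subgroup.subgroupOf
      ((Gamma1 N : Subgroup SL(2, ℤ)) : Subgroup (GL (Fin 2) ℝ)) 𝒮ℒ)) - 1 - m), ?_, ?_⟩
  · intro m hm
    refine exists_levelOne_interpCoeff f t _ _ ?_
    congr 2
    omega
  · funext z
    simp only [Pi.mul_apply, Finset.sum_apply, Pi.pow_apply]
    exact interp_identity f t z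

end main

end Fermat.Agent.H79.G1
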