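import Mathlib
import Fermat.Agent.H22.TheoremA
import Fermat.Agent.H79.DS.Interp1
import Fermat.Agent.H79.DS.CharPoly1
import Fermat.Agent.H79.DS.IntDiv1

/-!
# P-DS / DS-1a: Theorem A for `Γ₁(N)`, given a separating form

Port of `Fermat.Agent.H22.exists_conj` (P-INT) to `Γ₁(N)`: for a modular form `t` of weight `w₀`
on `Γ₁(N)` with integral `q`-expansion whose stabiliser in `SL(2, ℤ)` is `Γ₁(N)`, the
`q`-expansions of the cusp forms of any weight on `Γ₁(N)` are stable under every ring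
endomorphism of `ℂ`.
-/

set_option autoImplicit false

open UpperHalfPlane ModularForm CongruenceSubgroup Function
open scoped MatrixGroups ModularForm Manifold

namespace Fermat.Agent.H79.G1

open Fermat.Agent.H22 (Nice qx_sum_conj map_ringHom_of_int map_ringHom_eq_zero_iff levelOne_conj
  levelOne_conj_cusp nice_levelOne nice_levelOne_cusp qx_mul qx_add qx_pow qx_sum
  nice_of_modularForm nice_of_cuspForm)

theorem one_mem_strictPeriods_Gamma1 (N : ℕ) :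
    (1 : ℝ) ∈ (Subgroup.map (Matrix.SpecialLinearGroup.mapGL ℝ) (Gamma1 N)).strictPeriods := by
  rw [CongruenceSubgroup.strictPeriods_Gamma1]
  exact AddSubgroup.mem_zmultiples 1

lemma nice_Gamma1 {N : ℕ} [NeZero N] {k : ℤ} (f : ModularForm (Gamma1 N) k) : Nice (⇑f) :=
  nice_of_modularForm (one_mem_strictPeriods_Gamma1 N) f

lemma nice_Gamma1_cusp {N : ℕ} [NeZero N] {k : ℤ} (f : CuspForm (Gamma1 N) k) : Nice (⇑f) :=
  nice_of_cuspForm (one_mem_strictPeriods_Gamma1 N) f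

lemma Gamma1_le_SL (N : ℕ) :
    (Subgroup.map (Matrix.SpecialLinearGroup.mapGL ℝ) (Gamma1 N)) ≤ 𝒮ℒ := by
  rintro _ ⟨γ, -, rfl⟩
  exact ⟨γ, rfl⟩

/-- A level-one modular form, viewed as a modular form on `Γ₀(N)`. -/
def restrictLevelOne (N : ℕ) [NeZero N] {k : ℤ} (g : ModularForm 𝒮ℒ k) :
    ModularForm (Gamma1 N) k where
  toFun := g
  slash_action_eq' γ hγ := g.slash_action_eq' γ (Gamma1_le_SL N hγ)
  holo' := g.holo'
  bdd_at_cusps' hc := g.bdd_at_cusps' (hc.mono (Gamma1_le_SL N))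

@[simp] lemma coe_restrictLevelOne (N : ℕ) [NeZero N] {k : ℤ} (g : ModularForm 𝒮ℒ k) :
    ⇑(restrictLevelOne N g) = ⇑g := rfl

/-- Bundling `∑ m < μ, ℓ m * t ^ m` as a modular form on `Γ₀(N)`. -/
lemma exists_modularForm_sum (N : ℕ) [NeZero N] (k : ℤ) (μ : ℕ)
    {w₀ : ℤ} (t : ModularForm (Gamma1 N) w₀) (ℓ : ℕ → ℍ → ℂ)
    (hℓ : ∀ m < μ, ∃ g : ModularForm 𝒮ℒ (k + w₀ * ((μ : ℤ) - 1 - (m : ℤ))), ⇑g = ℓ m)
    (w : ℤ) (hw : w = k + w₀ * ((μ : ℤ) - 1)) :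
    ∃ G : ModularForm (Gamma1 N) w, ⇑G = ∑ m ∈ Finset.range μ, ℓ m * (⇑t) ^ m := by
  classical
  have key : ∀ m : ℕ, ∃ G : ModularForm (Gamma1 N) w, m < μ → ⇑G = ℓ m * (⇑t) ^ m := by
    intro m
    by_cases hm : m < μ
    · obtain ⟨g, hg⟩ := hℓ m hm
      refine ⟨ModularForm.mcast (by rw [hw]; ring) ((restrictLevelOne N g).mul (t.pow m)), ?_⟩
      intro _
      ext z
      simp [← hg]
    · exact ⟨0, fun h => absurd h hm⟩
  choose G hG using key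
  refine ⟨∑ m ∈ Finset.range μ, G m, ?_⟩
  rw [Fermat.Agent.H22.coe_finset_sum_modularForm]
  exact Finset.sum_congr rfl fun m hm => hG m (Finset.mem_range.1 hm)


/-- **Theorem A.** For every ring endomorphism `σ` of `ℂ` and every cusp form `f` on `Γ₀(N)`
there is a cusp form of the same weight and level whose `q`-expansion is the `σ`-conjugate of
that of `f`. -/
theorem exists_conj_of_sep (N : ℕ) [NeZero N] {w₀ : ℤ} (t : ModularForm (Gamma1 N) w₀)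
    (ht_int : ∀ n, ∃ m : ℤ, PowerSeries.coeff n (qExpansion 1 t) = (m : ℂ))
    (ht_sep : ∀ γ : SL(2, ℤ), (⇑t ∣[w₀] γ = ⇑t) → γ ∈ Gamma1 N)
    (k : ℤ) (σ : ℂ →+* ℂ) (f : CuspForm (Gamma1 N) k) :
    ∃ g : CuspForm (Gamma1 N) k, qExpansion 1 g = PowerSeries.map σ (qExpansion 1 f) := by
  classical
  obtain ⟨μ, D, hμ, hD0, hint⟩ := exists_interpolation N t ht_sep
  obtain ⟨ℓf, hℓf, hfD⟩ := hint k (ModularFormClass.modularForm f)
  obtain ⟨ℓ1, hℓ1, h1D⟩ := hint 0 (1 : ModularForm (Gamma1 N) 0)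
  obtain ⟨ν, c, hν, hc, hcf⟩ := exists_charpoly N k f
  have hfD' : (⇑f : ℍ → ℂ) * D = ∑ m ∈ Finset.range μ, ℓf m * (⇑t) ^ m := hfD
  have h1D' : D = ∑ m ∈ Finset.range μ, ℓ1 m * (⇑t) ^ m := by
    rw [← h1D, one_coe_eq_one, one_mul]
  -- niceness
  have hnt : Nice (⇑t) := nice_Gamma1 t
  have hnf : Nice (⇑f) := nice_Gamma1_cusp f
  have hnℓf : ∀ m < μ, Nice (ℓf m) := fun m hm => by
    obtain ⟨g, hg⟩ := hℓf m hm; rw [← hg]; exact nice_levelOne g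
  have hnℓ1 : ∀ m < μ, Nice (ℓ1 m) := fun m hm => by
    obtain ⟨g, hg⟩ := hℓ1 m hm; rw [← hg]; exact nice_levelOne g
  have hnc : ∀ i < ν, Nice (c i) := fun i hi => by
    obtain ⟨g, hg⟩ := hc i hi; rw [← hg]; exact nice_levelOne_cusp g
  have hnD : Nice D := by
    rw [h1D']
    exact Nice.sum _ _ fun m hm => (hnℓ1 m (Finset.mem_range.1 hm)).mul (hnt.pow m)
  have htσ : PowerSeries.map σ (qExpansion 1 (⇑t)) = qExpansion 1 (⇑t) :=
    map_ringHom_of_int σ ht_int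
  -- conjugate the level-one data
  have keyf : ∀ m, ∃ F' : ℍ → ℂ, m < μ →
      ((∃ g' : ModularForm 𝒮ℒ (k + w₀ * ((μ : ℤ) - 1 - (m : ℤ))), ⇑g' = F') ∧
        qExpansion 1 F' = PowerSeries.map σ (qExpansion 1 (ℓf m))) := by
    intro m
    by_cases hm : m < μ
    · obtain ⟨g, hg⟩ := hℓf m hm
      obtain ⟨g', hg'⟩ := levelOne_conj σ _ g
      exact ⟨⇑g', fun _ => ⟨⟨g', rfl⟩, by rw [hg', hg]⟩⟩
    · exact ⟨0, fun h => absurd h hm⟩
  choose ℓf' hℓf' using keyf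
  have key1 : ∀ m, ∃ F' : ℍ → ℂ, m < μ →
      ((∃ g' : ModularForm 𝒮ℒ (0 + w₀ * ((μ : ℤ) - 1 - (m : ℤ))), ⇑g' = F') ∧
        qExpansion 1 F' = PowerSeries.map σ (qExpansion 1 (ℓ1 m))) := by
    intro m
    by_cases hm : m < μ
    · obtain ⟨g, hg⟩ := hℓ1 m hm
      obtain ⟨g', hg'⟩ := levelOne_conj σ _ g
      exact ⟨⇑g', fun _ => ⟨⟨g', rfl⟩, by rw [hg', hg]⟩⟩
    · exact ⟨0, fun h => absurd h hm⟩
  choose ℓ1' hℓ1' using key1
  have keyc : ∀ i, ∃ F' : ℍ → ℂ, i < ν →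
      ((∃ g' : CuspForm 𝒮ℒ (k * ((ν : ℤ) - (i : ℤ))), ⇑g' = F') ∧
        qExpansion 1 F' = PowerSeries.map σ (qExpansion 1 (c i))) := by
    intro i
    by_cases hi : i < ν
    · obtain ⟨g, hg⟩ := hc i hi
      obtain ⟨g', hg'⟩ := levelOne_conj_cusp σ _ g
      exact ⟨⇑g', fun _ => ⟨⟨g', rfl⟩, by rw [hg', hg]⟩⟩
    · exact ⟨0, fun h => absurd h hi⟩
  choose c' hc' using keyc
  have hnℓf' : ∀ m < μ, Nice (ℓf' m) := fun m hm => by
    obtain ⟨g, hg⟩ := (hℓf' m hm).1; rw [← hg]; exact nice_levelOne g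
  have hnℓ1' : ∀ m < μ, Nice (ℓ1' m) := fun m hm => by
    obtain ⟨g, hg⟩ := (hℓ1' m hm).1; rw [← hg]; exact nice_levelOne g
  have hnc' : ∀ i < ν, Nice (c' i) := fun i hi => by
    obtain ⟨g, hg⟩ := (hc' i hi).1; rw [← hg]; exact nice_levelOne_cusp g
  -- the conjugated numerator and denominator
  obtain ⟨P, hP⟩ := exists_modularForm_sum N 0 μ t ℓ1' (fun m hm => (hℓ1' m hm).1)
    (w₀ * ((μ : ℤ) - 1)) (by ring)
  obtain ⟨Q, hQ⟩ := exists_modularForm_sum N k μ t ℓf' (fun m hm => (hℓf' m hm).1)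
    (w₀ * ((μ : ℤ) - 1) + k) (by ring)
  have hqP : qExpansion 1 (⇑P) = PowerSeries.map σ (qExpansion 1 D) := by
    rw [hP, qx_sum_conj σ μ _ hnt htσ ℓ1 ℓ1' hnℓ1 hnℓ1' fun m hm => (hℓ1' m hm).2, ← h1D']
  have hqQ : qExpansion 1 (⇑Q) =
      PowerSeries.map σ (qExpansion 1 (⇑f)) * PowerSeries.map σ (qExpansion 1 D) := by
    rw [hQ, qx_sum_conj σ μ _ hnt htσ ℓf ℓf' hnℓf hnℓf' fun m hm => (hℓf' m hm).2, ← hfD',
      qx_mul hnf hnD, map_mul]
  have hqD0 : qExpansion 1 D ≠ 0 := fun h => hD0 (hnD.eq_zero_of_qExpansion_eq_zero h)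
  have hqP0 : qExpansion 1 (⇑P) ≠ 0 := by
    rw [hqP]
    exact fun h => hqD0 ((map_ringHom_eq_zero_iff σ _).1 h)
  have hP0 : P ≠ 0 := by
    rintro rfl
    apply hqP0
    show qExpansion 1 (0 : ℍ → ℂ) = 0
    exact qExpansion_zero 1
  have hnP : Nice (⇑P) := nice_Gamma1 P
  have hnQ : Nice (⇑Q) := nice_Gamma1 Q
  -- the conjugated integrality equation
  have hint' : (⇑Q) ^ ν + ∑ i ∈ Finset.range ν, c' i * (⇑Q) ^ i * (⇑P) ^ (ν - i) = 0 := by
    have hn : Nice ((⇑Q) ^ ν + ∑ i ∈ Finset.range ν, c' i * (⇑Q) ^ i * (⇑P) ^ (ν - i)) :=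
      (hnQ.pow ν).add (Nice.sum _ _ fun i hi =>
        ((hnc' i (Finset.mem_range.1 hi)).mul (hnQ.pow i)).mul (hnP.pow _))
    apply hn.eq_zero_of_qExpansion_eq_zero
    rw [qx_add (hnQ.pow ν) (Nice.sum _ _ fun i hi =>
        ((hnc' i (Finset.mem_range.1 hi)).mul (hnQ.pow i)).mul (hnP.pow _)),
      qx_pow hnQ, qx_sum _ _ fun i hi =>
        ((hnc' i (Finset.mem_range.1 hi)).mul (hnQ.pow i)).mul (hnP.pow _)]
    have hterm : ∀ i ∈ Finset.range ν,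
        qExpansion 1 (c' i * (⇑Q) ^ i * (⇑P) ^ (ν - i)) =
          PowerSeries.map σ (qExpansion 1 D ^ ν * (qExpansion 1 (c i) * qExpansion 1 (⇑f) ^ i)) := by
      intro i hi
      have hi' := Finset.mem_range.1 hi
      rw [qx_mul ((hnc' i hi').mul (hnQ.pow i)) (hnP.pow _), qx_mul (hnc' i hi') (hnQ.pow i),
        qx_pow hnQ, qx_pow hnP, hqQ, hqP, (hc' i hi').2]
      simp only [map_mul, map_pow]
      have : ν = i + (ν - i) := by omega
      conv_rhs => rw [this]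
      ring
    rw [Finset.sum_congr rfl hterm, hqQ, ← map_sum, ← map_mul, ← map_pow, ← map_add]
    have h0 : (qExpansion 1 (⇑f) * qExpansion 1 D) ^ ν +
        ∑ i ∈ Finset.range ν, qExpansion 1 D ^ ν * (qExpansion 1 (c i) * qExpansion 1 (⇑f) ^ i)
          = qExpansion 1 D ^ ν *
            qExpansion 1 ((⇑f) ^ ν + ∑ i ∈ Finset.range ν, c i * (⇑f) ^ i) := by
      rw [qx_add (hnf.pow ν) (Nice.sum _ _ fun i hi =>
          (hnc i (Finset.mem_range.1 hi)).mul (hnf.pow i)),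
        qx_pow hnf, qx_sum _ _ fun i hi => (hnc i (Finset.mem_range.1 hi)).mul (hnf.pow i),
        mul_add, Finset.mul_sum, mul_pow]
      congr 1
      · ring
      · refine Finset.sum_congr rfl fun i hi => ?_
        rw [qx_mul (hnc i (Finset.mem_range.1 hi)) (hnf.pow i), qx_pow hnf]
    rw [h0, hcf, qExpansion_zero, mul_zero, map_zero]
  -- divide
  obtain ⟨h, hh⟩ := exists_cuspForm_of_integral N k (w₀ * ((μ : ℤ) - 1)) P Q hP0 ν hν c'
    (fun i hi => (hc' i hi).1) hint'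
  refine ⟨h, ?_⟩
  have hmul : (⇑h : ℍ → ℂ) * ⇑P = ⇑Q := funext hh
  have := congrArg (qExpansion 1) hmul
  rw [qx_mul (nice_Gamma1_cusp h) hnP, hqQ, hqP] at this
  have hne : PowerSeries.map σ (qExpansion 1 D) ≠ 0 := by rw [← hqP]; exact hqP0
  exact mul_right_cancel₀ hne this

end Fermat.Agent.H79.G1
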