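import Mathlib
import Fermat.Agent.H20.DS.Interfaces2
import Fermat.Agent.H79.DS.TheoremA1
import Fermat.Agent.H79.DS.SepQExp

/-!
# P-DS / DS-1a: Theorem A for `Γ₁(N)` (all weights), unconditionally

Second, independent proof of `Fermat.Agent.H20.DS.ConjGamma1Statement` and of
`Fermat.Agent.H20.DS.ConjStatement`: the original P-INT argument relative to `SL(2, ℤ)`
(level-one coefficients), with the weight-3 Eisenstein series `sepForm N` as separating form.
-/

set_option autoImplicit false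

open UpperHalfPlane ModularForm CongruenceSubgroup Function
open scoped MatrixGroups ModularForm Manifold

namespace Fermat.Agent.H79

/-- **Theorem A for `Γ₁(N)`**, all weights, `N ≥ 3`. -/
theorem conjGamma1Full : Fermat.Agent.H20.DS.ConjGamma1Statement := by
  intro N _ hN k σ f
  exact G1.exists_conj_of_sep N (sepForm N) (sepForm_integral N (by omega))
    (sepForm_stabiliser N hN) k σ f

/-- `-1 ∈ Γ₁(N)` for `N ≤ 2`. -/
theorem neg_one_mem_Gamma1_of_le_two (N : ℕ) (hN0 : N ≠ 0) (hN : N ≤ 2) :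
    (-1 : SL(2, ℤ)) ∈ Gamma1 N := by
  rw [Gamma1_mem]
  interval_cases N
  · exact absurd rfl hN0
  · exact ⟨Subsingleton.elim _ _, Subsingleton.elim _ _, Subsingleton.elim _ _⟩
  · refine ⟨?_, ?_, ?_⟩ <;> simp

/-- Every cusp form of weight one on `Γ₁(N)`, `N ≤ 2`, vanishes. -/
theorem cuspForm_one_eq_zero_of_le_two (N : ℕ) [NeZero N] (hN : N ≤ 2)
    (f : CuspForm (Gamma1 N) 1) : (⇑f : ℍ → ℂ) = 0 := by
  have hmem : (-1 : GL (Fin 2) ℝ) ∈
      ((Gamma1 N : Subgroup SL(2, ℤ)) : Subgroup (GL (Fin 2) ℝ)) := by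
    refine ⟨-1, neg_one_mem_Gamma1_of_le_two N (NeZero.ne N) hN, ?_⟩
    ext i j
    simp
  have hmf : (ModularFormClass.modularForm f : ModularForm (Gamma1 N) 1) = 0 :=
    ModularForm.eq_zero_of_neg_one_mem hmem odd_one _
  have := congrArg (fun F : ModularForm (Gamma1 N) 1 => (⇑F : ℍ → ℂ)) hmf
  simpa using this

/-- **DS-1a**, unconditionally (second proof). -/
theorem conjStatementFull : Fermat.Agent.H20.DS.ConjStatement := by
  intro N _ f σ
  by_cases hN : 3 ≤ N
  · obtain ⟨g, hg⟩ := conjGamma1Full N hN 1 σ f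
    refine ⟨g, fun n => ?_⟩
    unfold ModularFormClass.qCoeff
    rw [hg, PowerSeries.coeff_map]
  · have hf : (⇑f : ℍ → ℂ) = 0 := cuspForm_one_eq_zero_of_le_two N (by omega) f
    refine ⟨0, fun n => ?_⟩
    unfold ModularFormClass.qCoeff
    rw [hf]
    have h0 : (⇑(0 : CuspForm (Gamma1 N) 1) : ℍ → ℂ) = 0 := rfl
    rw [h0, qExpansion_zero]
    simp

end Fermat.Agent.H79
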